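import Fermat.Agent.ExtremalReals.Sequence
import Fermat.Agent.Subspace.Main
import Fermat.Agent.UniformSquare.Main

/-!
# Roy's number is extremal and transcendental
-/

set_option autoImplicit false

noncomputable section

open Filter Topology Matrix

namespace FA.ExtremalReals

open FA.UniformSquare (lam lam_sq half_lt_lam lam_lt_one NotQuadratic)
open FA.Subspace FA.Perfect

theorem tendsto_den : Tendsto (fun k => (den k : ℝ)) atTop atTop :=
  tendsto_atTop_mono (fun k => by
    have h := den_geometric 0 k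
    simp only [zero_add] at h
    have h4 : (1 : ℝ) ≤ den 0 := by exact_mod_cast (le_trans (by norm_num) (four_le_den 0))
    exact le_trans (le_mul_of_one_le_left (pow_nonneg (by norm_num) _) h4) h)
    (tendsto_pow_atTop_atTop_of_one_lt (by norm_num : (1 : ℝ) < 3))

/-- A relation at a point bounds the value of the polynomial. -/
theorem value_le {a b c : ℤ} {k : ℕ} (h : a * den k + b * num k + c * num2 k = 0) :
    |(a : ℝ) + b * extremal + c * extremal ^ 2| ≤
      (5 * (|(b : ℝ)| + |(c : ℝ)|)) * (1 / den k) := by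
  have h0 := den_pos k
  have h1 : (1 : ℝ) ≤ den k := by exact_mod_cast (le_trans (by norm_num) (four_le_den k))
  have h' : (a : ℝ) * den k + b * num k + c * num2 k = 0 := by exact_mod_cast h
  have e : (den k : ℝ) * ((a : ℝ) + b * extremal + c * extremal ^ 2) =
      b * ((den k : ℝ) * extremal - num k) + c * ((den k : ℝ) * extremal ^ 2 - num2 k) := by
    linear_combination h'
  refine le_trans (le_mul_of_one_le_left (abs_nonneg _) h1) ?_
  rw [← abs_of_pos h0, ← abs_mul, e, abs_of_pos h0]
  refine (abs_add_le _ _).trans ?_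
  rw [abs_mul, abs_mul, mul_add, add_mul]
  have h2 : 2 / (den k : ℝ) ≤ 5 / den k := by gcongr; norm_num
  refine add_le_add ((mul_le_mul_of_nonneg_left ((err_fst k).trans h2) (abs_nonneg _)).trans_eq ?_)
    ((mul_le_mul_of_nonneg_left (err_snd k) (abs_nonneg _)).trans_eq ?_) <;> ring

theorem notQuadratic : NotQuadratic extremal := by
  intro a b c h
  have hev : ∀ᶠ k in atTop, a * den k + b * num k + c * num2 k = 0 := by
    have hlim := (tendsto_den.inv_tendsto_atTop).const_mul (5 * (|(b : ℝ)| + |(c : ℝ)|))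
    rw [mul_zero] at hlim
    filter_upwards [hlim.eventually_lt_const one_pos] with k hk
    refine Int.abs_lt_one_iff.1 ?_
    have e : ((a * den k + b * num k + c * num2 k : ℤ) : ℝ) =
        -(b * ((den k : ℝ) * extremal - num k) + c * ((den k : ℝ) * extremal ^ 2 - num2 k)) := by
      push_cast
      linear_combination (den k : ℝ) * h
    have h2 : 2 / (den k : ℝ) ≤ 5 / den k := by
      have := den_pos k
      gcongr
      norm_num
    have hlt : |((a * den k + b * num k + c * num2 k : ℤ) : ℝ)| < 1 := by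
      rw [e, abs_neg]
      refine lt_of_le_of_lt ((abs_add_le _ _).trans ?_) hk
      rw [abs_mul, abs_mul, mul_add, add_mul, Pi.inv_apply]
      refine add_le_add
        ((mul_le_mul_of_nonneg_left ((err_fst k).trans h2) (abs_nonneg _)).trans_eq ?_)
        ((mul_le_mul_of_nonneg_left (err_snd k) (abs_nonneg _)).trans_eq ?_) <;> ring
    exact_mod_cast hlt
  obtain ⟨K, hK⟩ := eventually_atTop.1 hev
  have h0 := hK K le_rfl
  have h1 := hK (K + 1) (by omega)
  have h2 := hK (K + 2) (by omega)
  have hD := det_three K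
  set D := den K * (num (K + 1) * num2 (K + 2) - num2 (K + 1) * num (K + 2)) -
      num K * (den (K + 1) * num2 (K + 2) - num2 (K + 1) * den (K + 2)) +
      num2 K * (den (K + 1) * num (K + 2) - num (K + 1) * den (K + 2)) with hDdef
  have hD0 : D ≠ 0 := fun e => by simp [e] at hD
  refine ⟨(mul_eq_zero.1 (show a * D = 0 from ?_)).resolve_right hD0,
    (mul_eq_zero.1 (show b * D = 0 from ?_)).resolve_right hD0,
    (mul_eq_zero.1 (show c * D = 0 from ?_)).resolve_right hD0⟩
  · rw [hDdef]
    linear_combination (num (K + 1) * num2 (K + 2) - num2 (K + 1) * num (K + 2)) * h0 -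
      (num K * num2 (K + 2) - num2 K * num (K + 2)) * h1 +
      (num K * num2 (K + 1) - num2 K * num (K + 1)) * h2
  · rw [hDdef]
    linear_combination -(den (K + 1) * num2 (K + 2) - num2 (K + 1) * den (K + 2)) * h0 +
      (den K * num2 (K + 2) - num2 K * den (K + 2)) * h1 -
      (den K * num2 (K + 1) - num2 K * den (K + 1)) * h2
  · rw [hDdef]
    linear_combination (den (K + 1) * num (K + 2) - num (K + 1) * den (K + 2)) * h0 -
      (den K * num (K + 2) - num K * den (K + 2)) * h1 +
      (den K * num (K + 1) - num K * den (K + 1)) * h2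

theorem eventually_dot_ne_zero {v : Fin 3 → ℤ} (hv : v ≠ 0) :
    ∀ᶠ k in atTop, v 0 * den k + v 1 * num k + v 2 * num2 k ≠ 0 := by
  have hg : 0 < |(v 0 : ℝ) + v 1 * extremal + v 2 * extremal ^ 2| := abs_pos.2 fun h => by
    obtain ⟨h0, h1, h2⟩ := notQuadratic _ _ _ h
    exact hv (funext fun i => by fin_cases i <;> assumption)
  have hlim := (tendsto_den.inv_tendsto_atTop).const_mul (5 * (|(v 1 : ℝ)| + |(v 2 : ℝ)|))
  rw [mul_zero] at hlim
  filter_upwards [hlim.eventually_lt_const hg] with k hk h
  exact hk.not_ge ((value_le h).trans_eq (by rw [one_div, Pi.inv_apply]))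

theorem transcendental_extremal : Transcendental ℚ extremal := by
  intro halg
  obtain ⟨V, hV, hVx⟩ := finite_subspaces (n := 2) one_le_two
    !![extremal ^ 2, 0, -1; extremal, -1, 0; 1, 0, 0] (by simp [det_fin_three])
    (fun a c => by
      fin_cases a <;> fin_cases c <;>
        simp [halg, halg.pow 2, isAlgebraic_one, isAlgebraic_zero, isAlgebraic_one.neg])
    (δ := 1 / 2) (by norm_num)
  obtain ⟨k, hk, hbig⟩ := (((Filter.eventually_all_finset V).2 fun v hv =>
    eventually_dot_ne_zero (hV v hv)).and (tendsto_den.eventually_gt_atTop 100)).exists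
  set pt : Fin 3 → ℤ := ![den k, num k, num2 k]
  obtain ⟨a0, a1, a2, a3, a4⟩ := shape k
  have hq0 := den_pos k
  have hpt : pt ≠ 0 := fun e => by
    have := four_le_den k
    have e0 : den k = 0 := by simpa [pt] using congrFun e 0
    omega
  have hX : ‖castVec pt‖ ≤ den k := (pi_norm_le_iff_of_nonneg hq0.le).2 fun a => by
    have h1 : (num k : ℝ) ≤ den k := by exact_mod_cast a3
    have h2 : (num2 k : ℝ) ≤ den k := by exact_mod_cast a1.trans a3
    have h3 : (0 : ℝ) ≤ num k := by exact_mod_cast (by omega : 0 ≤ num k)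
    have h4 : (0 : ℝ) ≤ num2 k := by exact_mod_cast (by omega : 0 ≤ num2 k)
    fin_cases a <;> simp [castVec, pt, abs_of_pos hq0, abs_of_nonneg, h1, h2, h3, h4]
  obtain ⟨v, hv, hvx⟩ := hVx pt hpt (by
    have hX0 : 0 < ‖castVec pt‖ := norm_pos_iff.2 fun e => hpt (funext fun a => by
      simpa [castVec] using congrFun e a)
    have hprod : |(den k : ℝ) * extremal ^ 2 - num2 k| *
        (|(den k : ℝ) * extremal - num k| * |(den k : ℝ)|) ≤ 10 / den k := by
      calc _ ≤ 5 / (den k : ℝ) * (2 / den k * den k) := by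
            rw [abs_of_pos hq0]
            gcongr
            · exact err_snd k
            · exact err_fst k
        _ = 10 / den k := by field_simp; ring
    simp [Fin.prod_univ_succ, Fin.sum_univ_succ, pt, ← sub_eq_add_neg]
    refine lt_of_le_of_lt (le_trans (le_of_eq ?_) hprod) ?_
    · rw [mul_comm extremal, mul_comm (extremal ^ 2)]
    · rw [show ((2 : ℝ)⁻¹) = 1 / 2 by norm_num, Real.rpow_neg hX0.le]
      refine lt_of_lt_of_le ?_
        (inv_anti₀ (Real.rpow_pos_of_pos hX0 _) (Real.rpow_le_rpow hX0.le hX (by norm_num)))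
      rw [← Real.sqrt_eq_rpow, ← one_div, div_lt_div_iff₀ hq0 (Real.sqrt_pos.2 hq0), one_mul]
      nlinarith [Real.mul_self_sqrt hq0.le, Real.sqrt_nonneg (den k : ℝ)])
  refine hk v hv ?_
  simpa [dotProduct, Fin.sum_univ_succ, pt, ← add_assoc] using hvx

/-- `log den (k + 1) - γ log den k` is bounded. -/
def drift : ℝ := |Real.log (den 1) - (1 + lam) * Real.log (den 0)| + 8

theorem abs_drift_le : ∀ k, |Real.log (den (k + 1)) - (1 + lam) * Real.log (den k)| ≤ drift
  | 0 => le_add_of_nonneg_right (by norm_num)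
  | k + 1 => by
    have ih := abs_drift_le k
    set e := Real.log (den (k + 1)) - (1 + lam) * Real.log (den k) with he
    set θ := Real.log (den (k + 2)) - Real.log (den (k + 1)) - Real.log (den k) with hθ
    have hp := den_pos k
    have hq := den_pos (k + 1)
    have hr := den_pos (k + 2)
    obtain ⟨h3, h7⟩ := den_bounds k
    have h3' : 3 * ((den (k + 1) : ℝ) * den k) ≤ den (k + 2) := by exact_mod_cast h3
    have h7' : (den (k + 2) : ℝ) ≤ 7 * ((den (k + 1) : ℝ) * den k) := by exact_mod_cast h7
    have hlo := Real.log_le_log (by positivity) h3'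
    have hhi := Real.log_le_log hr h7'
    rw [Real.log_mul (by norm_num) (by positivity), Real.log_mul hq.ne' hp.ne'] at hlo hhi
    have hl3 : 0 ≤ Real.log 3 := Real.log_nonneg (by norm_num)
    have hl7 : Real.log 7 ≤ 3 := by
      have h8 : Real.log 7 ≤ Real.log ((2 : ℝ) ^ 3) :=
        Real.log_le_log (by norm_num) (by norm_num)
      rw [Real.log_pow] at h8
      push_cast at h8
      linarith [Real.log_le_sub_one_of_pos (by norm_num : (0 : ℝ) < 2)]
    have hrec : Real.log (den (k + 2)) - (1 + lam) * Real.log (den (k + 1)) = θ - lam * e := by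
      rw [he, hθ]
      linear_combination Real.log (den k) * (-lam_sq)
    rw [hrec]
    have h0 : 0 ≤ lam := by linarith [half_lt_lam]
    have hlam : lam ≤ 5 / 8 := by nlinarith [lam_sq]
    have hd : 8 ≤ drift := le_add_of_nonneg_left (abs_nonneg _)
    have hθ3 : |θ| ≤ 3 := abs_le.2 ⟨by linarith, by linarith⟩
    calc |θ - lam * e| ≤ |θ| + lam * |e| := by
          refine (abs_sub _ _).trans ?_
          rw [abs_mul, abs_of_nonneg h0]
      _ ≤ 3 + 5 / 8 * drift := add_le_add hθ3 (mul_le_mul hlam ih (abs_nonneg _) (by norm_num))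
      _ ≤ drift := by linarith

theorem den_succ_rpow_le (k : ℕ) :
    (den (k + 1) : ℝ) ^ lam ≤ Real.exp (lam * drift) * den k := by
  rw [Real.rpow_def_of_pos (den_pos _), ← Real.exp_log (den_pos k), ← Real.exp_add,
    Real.exp_le_exp]
  have h := (abs_le.1 (abs_drift_le k)).2
  have h0 : 0 ≤ lam := by linarith [half_lt_lam]
  have := mul_le_mul_of_nonneg_left h h0
  have : lam * (1 + lam) * Real.log (den k) = Real.log (den k) := by
    linear_combination Real.log (den k) * lam_sq
  linarith

/-- **Extremality.** -/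
theorem uniform_extremal : ∃ C : ℝ, 0 < C ∧ ∀ X : ℝ, (den 0 : ℝ) ≤ X →
    ∃ x0 x1 x2 : ℤ, 1 ≤ x0 ∧ (x0 : ℝ) ≤ X ∧
      max |(x0 : ℝ) * extremal - x1| |(x0 : ℝ) * extremal ^ 2 - x2| ≤ C * X ^ (-lam) := by
  classical
  refine ⟨5 * Real.exp (lam * drift), by positivity, fun X hX => ?_⟩
  have hex : ∃ k, X < (den k : ℝ) := (tendsto_den.eventually_gt_atTop X).exists
  obtain ⟨k, hk⟩ : ∃ k, Nat.find hex = k + 1 := ⟨Nat.find hex - 1, by
    rcases h : Nat.find hex with _ | j
    · exact absurd (h ▸ Nat.find_spec hex) (not_lt.2 hX)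
    · rfl⟩
  have hlt : X < (den (k + 1) : ℝ) := hk ▸ Nat.find_spec hex
  have hle : (den k : ℝ) ≤ X := not_lt.1 (Nat.find_min hex (by omega))
  have h0 := den_pos k
  have hX0 : 0 < X := h0.trans_le hle
  refine ⟨den k, num k, num2 k, by linarith [four_le_den k], hle, ?_⟩
  have h5 : 2 / (den k : ℝ) ≤ 5 / den k := by gcongr; norm_num
  refine (max_le ((err_fst k).trans h5) (err_snd k)).trans ?_
  rw [Real.rpow_neg hX0.le, ← div_eq_mul_inv, div_le_div_iff₀ h0 (Real.rpow_pos_of_pos hX0 _)]
  have hpow : X ^ lam ≤ (den (k + 1) : ℝ) ^ lam :=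
    Real.rpow_le_rpow hX0.le hlt.le (by linarith [half_lt_lam])
  nlinarith [den_succ_rpow_le k]

end FA.ExtremalReals
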