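import Mathlib.Analysis.SpecificLimits.Basic
import Mathlib.LinearAlgebra.Matrix.Notation
import Mathlib.LinearAlgebra.Matrix.Determinant.Basic
import Mathlib.Tactic

/-!
# Roy's symmetric matrices

`X (k + 2) = X (k + 1) S k X k` with `S (k + 1) = (S k)ᵀ` keeps the matrices symmetric; their
ratios converge to an extremal number.
-/

set_option autoImplicit false

noncomputable section

open Filter Topology Matrix

namespace FA.ExtremalReals

/-- The two last matrices and the next twist. -/
def triple : ℕ → Matrix (Fin 2) (Fin 2) ℤ × Matrix (Fin 2) (Fin 2) ℤ × Matrix (Fin 2) (Fin 2) ℤ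
  | 0 => (!![4, 3; 3, 2], !![25, 18; 18, 13], !![3, 2; 1, 1])
  | k + 1 => ((triple k).2.1, (triple k).2.1 * (triple k).2.2 * (triple k).1, (triple k).2.2ᵀ)

/-- The matrices. -/
def mat (k : ℕ) : Matrix (Fin 2) (Fin 2) ℤ := (triple k).1

/-- The twists. -/
def twist (k : ℕ) : Matrix (Fin 2) (Fin 2) ℤ := (triple k).2.2

theorem mat_rec (k : ℕ) : mat (k + 2) = mat (k + 1) * twist k * mat k := rfl

theorem twist_succ (k : ℕ) : twist (k + 1) = (twist k)ᵀ := rfl

theorem twist_cases (k : ℕ) : twist k = !![3, 2; 1, 1] ∨ twist k = !![3, 1; 2, 1] := by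
  induction k with
  | zero => exact Or.inl rfl
  | succ k ih =>
    rcases ih with h | h
    · right
      rw [twist_succ, h]
      ext i j
      fin_cases i <;> fin_cases j <;> rfl
    · left
      rw [twist_succ, h]
      ext i j
      fin_cases i <;> fin_cases j <;> rfl

theorem symm_aux (k : ℕ) : (mat k)ᵀ = mat k ∧ (mat (k + 1))ᵀ = mat (k + 1) ∧
    (mat (k + 2))ᵀ = mat (k + 2) := by
  induction k with
  | zero =>
    refine ⟨?_, ?_, ?_⟩ <;> ext i j <;> fin_cases i <;> fin_cases j <;>
      simp [mat, triple]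
  | succ k ih =>
    obtain ⟨h0, h1, h2⟩ := ih
    refine ⟨h1, h2, ?_⟩
    have e : mat (k + 1 + 2) = mat (k + 1) * twist k * mat k * (twist k)ᵀ * mat (k + 1) := by
      rw [mat_rec (k + 1), twist_succ, mat_rec k]
    rw [e]
    simp only [Matrix.transpose_mul, Matrix.transpose_transpose, h0, h1, Matrix.mul_assoc]

theorem det_mat_sq : ∀ k, (mat k).det ^ 2 = 1
  | 0 => by simp [mat, triple, Matrix.det_fin_two]
  | 1 => by simp [mat, triple, Matrix.det_fin_two]
  | k + 2 => by
    have hS : (twist k).det = 1 := by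
      rcases twist_cases k with h | h <;> simp [h, Matrix.det_fin_two]
    rw [mat_rec, Matrix.det_mul, Matrix.det_mul, hS, mul_one, mul_pow, det_mat_sq (k + 1),
      det_mat_sq k, one_mul]

/-- The denominators. -/
def den (k : ℕ) : ℤ := mat k 0 0

/-- The numerators. -/
def num (k : ℕ) : ℤ := mat k 0 1

/-- The numerators of the squares. -/
def num2 (k : ℕ) : ℤ := mat k 1 1

theorem mat_one_zero (k : ℕ) : mat k 1 0 = num k := by
  have h := congrFun (congrFun (symm_aux k).1 0) 1
  simpa [num] using h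

theorem abs_disc (k : ℕ) : |den k * num2 k - num k ^ 2| = 1 := by
  have h := det_mat_sq k
  rw [Matrix.det_fin_two, mat_one_zero, ← sq_abs] at h
  rw [den, num2, sq]
  exact (pow_eq_one_iff_of_nonneg (abs_nonneg _) two_ne_zero).1 h

/-- The entries of the next matrix. -/
theorem entries (k : ℕ) : ∃ s t u w : ℤ,
    s = 3 ∧ w = 1 ∧ (t = 2 ∧ u = 1 ∨ t = 1 ∧ u = 2) ∧
    den (k + 2) = (den (k + 1) * s + num (k + 1) * u) * den k +
      (den (k + 1) * t + num (k + 1) * w) * num k ∧
    num (k + 2) = (den (k + 1) * s + num (k + 1) * u) * num k +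
      (den (k + 1) * t + num (k + 1) * w) * num2 k ∧
    num (k + 2) = (num (k + 1) * s + num2 (k + 1) * u) * den k +
      (num (k + 1) * t + num2 (k + 1) * w) * num k ∧
    num2 (k + 2) = (num (k + 1) * s + num2 (k + 1) * u) * num k +
      (num (k + 1) * t + num2 (k + 1) * w) * num2 k := by
  refine ⟨twist k 0 0, twist k 0 1, twist k 1 0, twist k 1 1, ?_, ?_, ?_, ?_, ?_, ?_, ?_⟩
  · rcases twist_cases k with h | h <;> simp [h]
  · rcases twist_cases k with h | h <;> simp [h]
  · rcases twist_cases k with h | h <;> simp [h]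
  · rw [den, mat_rec]
    simp [Matrix.mul_apply, Fin.sum_univ_two, mat_one_zero, den, num]
  · rw [num, mat_rec]
    simp [Matrix.mul_apply, Fin.sum_univ_two, den, num, num2]
  · rw [← mat_one_zero (k + 2), mat_rec]
    simp [Matrix.mul_apply, Fin.sum_univ_two, mat_one_zero, den, num, num2]
  · rw [num2, mat_rec]
    simp [Matrix.mul_apply, Fin.sum_univ_two, mat_one_zero, num, num2]

/-- The shape of the entries. -/
def Shape (k : ℕ) : Prop :=
  1 ≤ num2 k ∧ num2 k ≤ num k ∧ num k ≤ 2 * num2 k ∧ num k ≤ den k ∧ den k ≤ 2 * num k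

theorem shape : ∀ k, Shape k
  | 0 => by norm_num [Shape, den, num, num2, mat, triple]
  | 1 => by norm_num [Shape, den, num, num2, mat, triple]
  | k + 2 => by
    obtain ⟨a0, a1, a2, a3, a4⟩ := shape k
    obtain ⟨b0, b1, b2, b3, b4⟩ := shape (k + 1)
    obtain ⟨s, t, u, w, rfl, rfl, htu, e1, e2, e2', e3⟩ := entries k
    have ht : 1 ≤ t ∧ 1 ≤ u := by omega
    set α := den (k + 1) * 3 + num (k + 1) * u
    set β := den (k + 1) * t + num (k + 1) * 1
    set γ := num (k + 1) * 3 + num2 (k + 1) * u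
    set δ := num (k + 1) * t + num2 (k + 1) * 1
    have hα : 0 ≤ α := by simp only [α]; nlinarith
    have hβ : 0 ≤ β := by simp only [β]; nlinarith
    have hγ : 1 ≤ γ := by simp only [γ]; nlinarith
    have hδ : 0 ≤ δ := by simp only [δ]; nlinarith
    refine ⟨?_, ?_, ?_, ?_, ?_⟩
    · rw [e3]
      nlinarith
    · rw [e3, e2']
      nlinarith
    · rw [e3, e2']
      nlinarith
    · rw [e2, e1]
      nlinarith
    · rw [e2, e1]
      nlinarith

theorem den_bounds (k : ℕ) : 3 * (den (k + 1) * den k) ≤ den (k + 2) ∧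
    den (k + 2) ≤ 7 * (den (k + 1) * den k) := by
  obtain ⟨a0, a1, a2, a3, a4⟩ := shape k
  obtain ⟨b0, b1, b2, b3, b4⟩ := shape (k + 1)
  obtain ⟨s, t, u, w, rfl, rfl, htu, e1, -⟩ := entries k
  rw [e1]
  rcases htu with ⟨rfl, rfl⟩ | ⟨rfl, rfl⟩ <;> constructor <;> nlinarith

theorem four_le_den : ∀ k, 4 ≤ den k
  | 0 => by norm_num [den, mat, triple]
  | 1 => by norm_num [den, mat, triple]
  | k + 2 => by
    have h1 := four_le_den k
    have h2 := four_le_den (k + 1)
    nlinarith [(den_bounds k).1]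

theorem three_mul_den_le : ∀ k, 3 * den k ≤ den (k + 1)
  | 0 => by norm_num [den, mat, triple]
  | k + 1 => by nlinarith [(den_bounds k).1, four_le_den k, four_le_den (k + 1)]

theorem abs_cross_le : ∀ k,
    |num (k + 1) * den k - den (k + 1) * num k| * den k ≤ den (k + 1)
  | 0 => by norm_num [den, num, mat, triple]
  | k + 1 => by
    obtain ⟨a0, a1, a2, a3, a4⟩ := shape k
    obtain ⟨s, t, u, w, rfl, rfl, htu, e1, -, e2, -⟩ := entries k
    have e : num (k + 2) * den (k + 1) - den (k + 2) * num (k + 1) =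
        (den (k + 1) * num2 (k + 1) - num (k + 1) ^ 2) * (u * den k + num k) := by
      rw [e1, e2]
      ring
    have hu : 1 ≤ u ∧ u ≤ 2 := by omega
    rw [e, abs_mul, abs_disc, one_mul, abs_of_nonneg (by nlinarith)]
    refine le_trans ?_ (den_bounds k).1
    rw [show 3 * (den (k + 1) * den k) = 3 * den k * den (k + 1) by ring]
    exact mul_le_mul_of_nonneg_right (by nlinarith) (by linarith [four_le_den (k + 1)])

/-- The ratios. -/
def ratio (k : ℕ) : ℝ := (num k : ℝ) / den k

theorem den_pos (k : ℕ) : (0 : ℝ) < den k := by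
  exact_mod_cast (by linarith [four_le_den k] : (0 : ℤ) < den k)

theorem dist_ratio_succ (k : ℕ) : dist (ratio k) (ratio (k + 1)) ≤ 1 / (den k : ℝ) ^ 2 := by
  have h : |((num (k + 1) : ℝ) * den k - den (k + 1) * num k)| * den k ≤ den (k + 1) := by
    exact_mod_cast abs_cross_le k
  rw [Real.dist_eq, abs_sub_comm, ratio, ratio,
    div_sub_div _ _ (den_pos _).ne' (den_pos _).ne', abs_div,
    abs_of_pos (mul_pos (den_pos _) (den_pos _)),
    div_le_div_iff₀ (mul_pos (den_pos _) (den_pos _)) (by have := den_pos k; positivity), one_mul]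
  nlinarith [mul_le_mul_of_nonneg_right h (den_pos k).le]

theorem den_geometric (n j : ℕ) : (den n : ℝ) * 3 ^ j ≤ den (n + j) := by
  induction j with
  | zero => simp
  | succ j ih =>
    have h : 3 * (den (n + j) : ℝ) ≤ den (n + j + 1) := by exact_mod_cast three_mul_den_le (n + j)
    rw [← add_assoc, pow_succ]
    linarith

theorem dist_ratio_le (n j : ℕ) :
    dist (ratio (n + j)) (ratio (n + (j + 1))) ≤ 1 / (den n : ℝ) ^ 2 * (1 / 9) ^ j := by
  refine (dist_ratio_succ (n + j)).trans ?_
  rw [one_div_pow, one_div_mul_one_div]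
  refine one_div_le_one_div_of_le (by have := den_pos n; positivity) ?_
  calc (den n : ℝ) ^ 2 * 9 ^ j = ((den n : ℝ) * 3 ^ j) ^ 2 := by
        rw [mul_pow, ← pow_mul, show (9 : ℝ) = 3 ^ 2 by norm_num, ← pow_mul, mul_comm j]
    _ ≤ (den (n + j) : ℝ) ^ 2 :=
        pow_le_pow_left₀ (by have := den_pos n; positivity) (den_geometric n j) 2

/-- Roy's number. -/
def extremal : ℝ := limUnder atTop ratio

theorem tendsto_ratio : Tendsto ratio atTop (𝓝 extremal) :=
  CauchySeq.tendsto_limUnder (cauchySeq_of_le_geometric (1 / 9) (1 / (den 0 : ℝ) ^ 2)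
    (by norm_num) fun j => by simpa using dist_ratio_le 0 j)

theorem abs_extremal_sub_ratio (k : ℕ) : |extremal - ratio k| ≤ 2 / (den k : ℝ) ^ 2 := by
  have h := dist_le_of_le_geometric_of_tendsto₀ (f := fun j => ratio (k + j)) (1 / 9)
    (1 / (den k : ℝ) ^ 2) (by norm_num) (dist_ratio_le k)
    ((tendsto_ratio.comp (tendsto_add_atTop_nat k)).congr fun j => by simp [add_comm])
  simp only [add_zero, Real.dist_eq, abs_sub_comm] at h
  refine h.trans ?_
  rw [div_le_iff₀ (by norm_num)]
  have : 0 ≤ 1 / (den k : ℝ) ^ 2 := by positivity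
  have e : 2 / (den k : ℝ) ^ 2 = 2 * (1 / (den k : ℝ) ^ 2) := by ring
  rw [e]
  linarith

theorem extremal_mem : 1 / 2 ≤ extremal ∧ extremal ≤ 1 := by
  have h : ∀ k, 1 / 2 ≤ ratio k ∧ ratio k ≤ 1 := fun k => by
    obtain ⟨-, -, -, h3, h4⟩ := shape k
    have h3' : (num k : ℝ) ≤ den k := by exact_mod_cast h3
    have h4' : (den k : ℝ) ≤ 2 * num k := by exact_mod_cast h4
    rw [ratio, div_le_iff₀ (den_pos k), le_div_iff₀ (den_pos k)]
    constructor <;> linarith
  exact ⟨ge_of_tendsto tendsto_ratio (Eventually.of_forall fun k => (h k).1),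
    le_of_tendsto tendsto_ratio (Eventually.of_forall fun k => (h k).2)⟩

theorem err_fst (k : ℕ) : |(den k : ℝ) * extremal - num k| ≤ 2 / den k := by
  have h0 := den_pos k
  have h := abs_extremal_sub_ratio k
  rw [ratio, show extremal - (num k : ℝ) / den k = ((den k : ℝ) * extremal - num k) / den k by
    field_simp, abs_div, abs_of_pos h0, div_le_iff₀ h0] at h
  refine h.trans_eq ?_
  field_simp

theorem err_snd (k : ℕ) : |(den k : ℝ) * extremal ^ 2 - num2 k| ≤ 5 / den k := by
  have h0 := den_pos k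
  obtain ⟨-, -, -, h3, h4⟩ := shape k
  have h3' : (num k : ℝ) ≤ den k := by exact_mod_cast h3
  have h4' : (den k : ℝ) ≤ 2 * num k := by exact_mod_cast h4
  have hd : |(den k : ℝ) * num2 k - (num k : ℝ) ^ 2| = 1 := by exact_mod_cast abs_disc k
  obtain ⟨hx0, hx1⟩ := extremal_mem
  rw [show (den k : ℝ) * extremal ^ 2 - num2 k = ((den k : ℝ) * extremal - num k) *
    (extremal + num k / den k) - ((den k : ℝ) * num2 k - (num k : ℝ) ^ 2) / den k by
      field_simp; ring]
  refine (abs_sub _ _).trans ?_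
  have hr : (num k : ℝ) / den k ≤ 1 := (div_le_one h0).2 h3'
  have hr0 : 0 ≤ (num k : ℝ) / den k := div_nonneg (by linarith) h0.le
  rw [abs_mul, abs_div, hd, abs_of_pos h0, abs_of_nonneg (show 0 ≤ extremal + num k / den k by
    linarith)]
  calc |(den k : ℝ) * extremal - num k| * (extremal + num k / den k) + 1 / (den k : ℝ)
      ≤ 2 / (den k : ℝ) * 2 + 1 / den k := by
        gcongr
        · exact err_fst k
        · linarith
    _ = 5 / den k := by ring

/-- Three consecutive points are independent. -/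
theorem det_three (k : ℕ) :
    |den k * (num (k + 1) * num2 (k + 2) - num2 (k + 1) * num (k + 2)) -
      num k * (den (k + 1) * num2 (k + 2) - num2 (k + 1) * den (k + 2)) +
      num2 k * (den (k + 1) * num (k + 2) - num (k + 1) * den (k + 2))| = 1 := by
  obtain ⟨s, t, u, w, -, -, htu, e1, e2, e2', e3⟩ := entries k
  set D := den k * (num (k + 1) * num2 (k + 2) - num2 (k + 1) * num (k + 2)) -
    num k * (den (k + 1) * num2 (k + 2) - num2 (k + 1) * den (k + 2)) +
    num2 k * (den (k + 1) * num (k + 2) - num (k + 1) * den (k + 2)) with hD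
  have e : D = (u - t) * ((den k * num2 k - num k ^ 2) *
      (den (k + 1) * num2 (k + 1) - num (k + 1) ^ 2)) := by
    rw [hD, e1, e3]
    rw [e2] at e2' ⊢
    linear_combination (num2 k * den (k + 1) - num k * num (k + 1)) * e2'
  rw [e, abs_mul, abs_mul, abs_disc, abs_disc, mul_one, mul_one]
  rcases htu with ⟨rfl, rfl⟩ | ⟨rfl, rfl⟩ <;> norm_num

end FA.ExtremalReals
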